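import Fermat.Agent.S34x.C0two.Count
import Fermat.Agent.Gateway.C0.Count

/-!
# P-S34 WP6 (C0two), file Pair: the small ring of two valuation subrings

For two valuation subrings `O₁ O₂` of `F`: the small ring `twoVal O₁ O₂ = (O₁ ⊓ O₂, small for both)`,
its `Base` from the two `Gateway.C0.Base`s, and the `RedSetup2` with residue ring `κ₁ × κ₂` from two
`Gateway.C0.RedSetup`s with the same `π`.
-/

set_option autoImplicit false
set_option linter.unusedSectionVars false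

namespace Fermat.Agent.S34x.C0two

open IsLocalRing

variable {F : Type*} [Field F]

/-- The small ring `O₁ ⊓ O₂` of two valuation subrings; an element is small if it is small for
both valuations. -/
def twoVal (O₁ O₂ : ValuationSubring F) : SmallRing F where
  O := O₁.toSubring ⊓ O₂.toSubring
  I :=
    { carrier := {x | O₁.valuation (x : F) < 1 ∧ O₂.valuation (x : F) < 1}
      add_mem' := fun {x y} hx hy =>
        ⟨O₁.valuation.map_add_lt hx.1 hy.1, O₂.valuation.map_add_lt hx.2 hy.2⟩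
      zero_mem' := by
        constructor <;> simp
      smul_mem' := fun c x hx => by
        have hc1 : O₁.valuation (c : F) ≤ 1 := (O₁.valuation_le_one_iff _).mpr c.2.1
        have hc2 : O₂.valuation (c : F) ≤ 1 := (O₂.valuation_le_one_iff _).mpr c.2.2
        constructor
        · show O₁.valuation ((c : F) * (x : F)) < 1
          rw [map_mul]
          exact lt_of_le_of_lt (mul_le_of_le_one_left' hc1) hx.1
        · show O₂.valuation ((c : F) * (x : F)) < 1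
          rw [map_mul]
          exact lt_of_le_of_lt (mul_le_of_le_one_left' hc2) hx.2 }

variable {O₁ O₂ : ValuationSubring F}

theorem mem_twoVal_O {x : F} : x ∈ (twoVal O₁ O₂).O ↔ x ∈ O₁ ∧ x ∈ O₂ := Iff.rfl

theorem small_twoVal_iff {x : F} :
    Small (twoVal O₁ O₂) x ↔ O₁.valuation x < 1 ∧ O₂.valuation x < 1 := by
  constructor
  · rintro ⟨_, h⟩
    exact h
  · intro h
    exact ⟨⟨(O₁.valuation_le_one_iff x).mp h.1.le, (O₂.valuation_le_one_iff x).mp h.2.le⟩, h⟩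

theorem small_twoVal_iff' {x : F} :
    Small (twoVal O₁ O₂) x ↔ Gateway.C0.Small O₁ x ∧ Gateway.C0.Small O₂ x :=
  small_twoVal_iff

theorem cong_twoVal_iff {x y : F} :
    Cong (twoVal O₁ O₂) x y ↔ Gateway.C0.Cong O₁ x y ∧ Gateway.C0.Cong O₂ x y :=
  small_twoVal_iff

section base

variable {A : Type*} [CommRing A] [IsDomain A] [ValuationRing A] [Algebra A F]
  [Module.IsTorsionFree A F]

/-- The `Base` of the small ring of two valuation subrings which are both unramified over `A`. -/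
theorem base_twoVal (h₁ : Gateway.C0.Base A O₁) (h₂ : Gateway.C0.Base A O₂) :
    Base A (twoVal O₁ O₂) where
  algebraMap_mem a := ⟨h₁.algebraMap_mem a, h₂.algebraMap_mem a⟩
  algebraMap_small a ha := small_twoVal_iff.mpr ⟨h₁.algebraMap_lt a ha, h₂.algebraMap_lt a ha⟩
  rank_one := h₁.rank_one
  unram x hx := by
    rw [small_twoVal_iff] at hx
    obtain ⟨ϖ₁, hϖ₁, y₁, hy₁, e₁⟩ := h₁.unram x hx.1
    obtain ⟨ϖ₂, hϖ₂, y₂, hy₂, e₂⟩ := h₂.unram x hx.2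
    by_cases h0 : x = 0
    · exact ⟨0, (maximalIdeal A).zero_mem, 0, (twoVal O₁ O₂).O.zero_mem, by simp [h0]⟩
    have hϖ₁0 : ϖ₁ ≠ 0 := by
      rintro rfl
      exact h0 (by rw [e₁, zero_smul])
    have hϖ₂0 : ϖ₂ ≠ 0 := by
      rintro rfl
      exact h0 (by rw [e₂, zero_smul])
    rcases ValuationRing.dvd_total ϖ₁ ϖ₂ with ⟨e, he⟩ | ⟨e, he⟩
    · -- `ϖ₂ = ϖ₁ * e`: use `ϖ₁`, `y₁ = e • y₂`
      refine ⟨ϖ₁, hϖ₁, y₁, ⟨hy₁, ?_⟩, e₁⟩
      have h3 : ϖ₁ • y₁ = ϖ₁ • (e • y₂) := by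
        rw [← e₁, smul_smul, ← he, ← e₂]
      have h4 : y₁ = e • y₂ := smul_right_injective F hϖ₁0 h3
      rw [h4]
      exact h₂.smul_mem_O e hy₂
    · refine ⟨ϖ₂, hϖ₂, y₂, ⟨?_, hy₂⟩, e₂⟩
      have h3 : ϖ₂ • y₂ = ϖ₂ • (e • y₁) := by
        rw [← e₂, smul_smul, ← he, ← e₁]
      have h4 : y₂ = e • y₁ := smul_right_injective F hϖ₂0 h3
      rw [h4]
      exact h₁.smul_mem_O e hy₁
  exists_ne_zero := h₁.exists_ne_zero

end base

section red

variable {K : Type*} [Field K] {A : ValuationSubring K} [Algebra K F]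
  {k κ₁ κ₂ : Type*} [Field k] [Field κ₁] [Field κ₂] [Algebra k κ₁] [Algebra k κ₂]

/-- The pair of two residue maps, on `O₁ ⊓ O₂`. -/
def twoValRes (r₁ : O₁ →+* κ₁) (r₂ : O₂ →+* κ₂) : (twoVal O₁ O₂).O →+* κ₁ × κ₂ where
  toFun x := (r₁ ⟨x.1, x.2.1⟩, r₂ ⟨x.1, x.2.2⟩)
  map_one' := Prod.ext (map_one r₁) (map_one r₂)
  map_mul' x y := Prod.ext (map_mul r₁ ⟨x.1, x.2.1⟩ ⟨y.1, y.2.1⟩)
    (map_mul r₂ ⟨x.1, x.2.2⟩ ⟨y.1, y.2.2⟩)
  map_zero' := Prod.ext (map_zero r₁) (map_zero r₂)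
  map_add' x y := Prod.ext (map_add r₁ ⟨x.1, x.2.1⟩ ⟨y.1, y.2.1⟩)
    (map_add r₂ ⟨x.1, x.2.2⟩ ⟨y.1, y.2.2⟩)

theorem twoValRes_apply (r₁ : O₁ →+* κ₁) (r₂ : O₂ →+* κ₂) (x : (twoVal O₁ O₂).O) :
    twoValRes r₁ r₂ x = (r₁ ⟨x.1, x.2.1⟩, r₂ ⟨x.1, x.2.2⟩) := rfl

/-- The `RedSetup2` with residue ring `κ₁ × κ₂` of two valuation subrings of `F` over `A`. -/
noncomputable def redSetupTwoVal (R₁ : Gateway.C0.RedSetup A O₁ k κ₁)
    (R₂ : Gateway.C0.RedSetup A O₂ k κ₂) (hπ : R₁.π = R₂.π) :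
    RedSetup2 A (twoVal O₁ O₂) k (κ₁ × κ₂) where
  π := R₁.π
  π_surj := R₁.π_surj
  res := twoValRes R₁.res R₂.res
  res_ker x := by
    rw [twoValRes_apply, Prod.mk_eq_zero]
    exact and_congr (R₁.res_ker _) (R₂.res_ker _)
  algebraMap_mem a := ⟨R₁.algebraMap_mem a, R₂.algebraMap_mem a⟩
  res_algebraMap a := by
    rw [twoValRes_apply]
    refine Prod.ext ?_ ?_
    · exact R₁.res_algebraMap a
    · exact (R₂.res_algebraMap a).trans (by rw [← hπ]; rfl)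
  scal f hf := by
    obtain ⟨c₁, hc₁, h₁⟩ := R₁.scal f hf
    obtain ⟨c₂, hc₂, h₂⟩ := R₂.scal f hf
    have key : ∀ (O O' : ValuationSubring F) (c c' : K), c' ≠ 0 →
        (∀ a : A, algebraMap K F a ∈ O') → c * c'⁻¹ ∈ A → O'.valuation (c' • f) = 1 →
        c • f ∈ O' := by
      intro O O' c c' hc' hA hcc h1
      have h3 : c • f = algebraMap K F (c * c'⁻¹) * (c' • f) := by
        rw [Algebra.smul_def, Algebra.smul_def, ← mul_assoc, ← map_mul, mul_assoc,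
          inv_mul_cancel₀ hc', mul_one]
      rw [h3]
      exact O'.mul_mem _ _ (hA ⟨_, hcc⟩) ((O'.valuation_le_one_iff _).mp h1.le)
    rcases A.mem_or_inv_mem (c₁ * c₂⁻¹) with h | h
    · refine ⟨c₁, hc₁, ⟨(O₁.valuation_le_one_iff _).mp h₁.le,
        key O₁ O₂ c₁ c₂ hc₂ R₂.algebraMap_mem h h₂⟩, fun hs => ?_⟩
      exact absurd h₁ (ne_of_lt (small_twoVal_iff.mp hs).1)
    · have h' : c₂ * c₁⁻¹ ∈ A := by
        have : (c₁ * c₂⁻¹)⁻¹ = c₂ * c₁⁻¹ := by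
          rw [mul_inv, inv_inv, mul_comm]
        rwa [this] at h
      refine ⟨c₂, hc₂, ⟨key O₂ O₁ c₂ c₁ hc₁ R₁.algebraMap_mem h' h₁,
        (O₂.valuation_le_one_iff _).mp h₂.le⟩, fun hs => ?_⟩
      exact absurd h₂ (ne_of_lt (small_twoVal_iff.mp hs).2)
  rank_one := R₁.rank_one
  exists_ne_zero := R₁.exists_ne_zero

theorem redSetupTwoVal_res_fst (R₁ : Gateway.C0.RedSetup A O₁ k κ₁)
    (R₂ : Gateway.C0.RedSetup A O₂ k κ₂) (hπ : R₁.π = R₂.π) {x : F}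
    (hx : x ∈ (twoVal O₁ O₂).O) :
    ((redSetupTwoVal R₁ R₂ hπ).res ⟨x, hx⟩).1 = R₁.res ⟨x, hx.1⟩ := rfl

theorem redSetupTwoVal_res_snd (R₁ : Gateway.C0.RedSetup A O₁ k κ₁)
    (R₂ : Gateway.C0.RedSetup A O₂ k κ₂) (hπ : R₁.π = R₂.π) {x : F}
    (hx : x ∈ (twoVal O₁ O₂).O) :
    ((redSetupTwoVal R₁ R₂ hπ).res ⟨x, hx⟩).2 = R₂.res ⟨x, hx.2⟩ := rfl

end red

end Fermat.Agent.S34x.C0two
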