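import Fermat.Agent.Gateway.C0.ValModule

/-!
# P-S34 WP6 (C0two), abstract layer 1a: one chart over a "small ring"

This is `Gateway/C0/Filt.lean` with the valuation subring `O` of `F` replaced by a *small ring*:
a subring `O` of `F` together with an ideal `I` of "small" elements (think of
`O = O₁ ⊓ O₂` for two valuation subrings, `I` = the elements small for both).  Nothing else about
`O` is used by the C0 argument.

A "chart" is a filtered ring `R = ⋃ N n` with a filtered module `P = ⋃ M n` of `A`-lattices inside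
`O`, with `u * x ^ i * y ^ j ∈ N (m n)` for `x y ∈ M n`, `i + j = m`.
-/

set_option autoImplicit false
set_option linter.unusedSectionVars false

namespace Fermat.Agent.S34x.C0two

open IsLocalRing Polynomial

variable {A : Type*} [CommRing A] [IsDomain A] [ValuationRing A]
variable {F : Type*} [Field F] [Algebra A F]

/-- A subring `O` of the field `F` with an ideal `I` of small elements. -/
structure SmallRing (F : Type*) [Field F] where
  O : Subring F
  I : Ideal O

section small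

variable (S : SmallRing F)

/-- `x` lies in the ideal of small elements. -/
def Small (x : F) : Prop := ∃ h : x ∈ S.O, (⟨x, h⟩ : S.O) ∈ S.I

variable {S}

theorem Small.mem {x : F} (h : Small S x) : x ∈ S.O := h.1

theorem small_iff {x : F} (hx : x ∈ S.O) : Small S x ↔ (⟨x, hx⟩ : S.O) ∈ S.I :=
  ⟨fun h => h.2, fun h => ⟨hx, h⟩⟩

theorem small_zero : Small S (0 : F) := ⟨S.O.zero_mem, S.I.zero_mem⟩

theorem Small.add {x y : F} (hx : Small S x) (hy : Small S y) : Small S (x + y) :=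
  ⟨S.O.add_mem hx.1 hy.1, S.I.add_mem hx.2 hy.2⟩

theorem Small.neg {x : F} (hx : Small S x) : Small S (-x) :=
  ⟨S.O.neg_mem hx.1, S.I.neg_mem hx.2⟩

theorem Small.sub {x y : F} (hx : Small S x) (hy : Small S y) : Small S (x - y) := by
  rw [sub_eq_add_neg]
  exact hx.add hy.neg

theorem Small.mul_left {x y : F} (hx : x ∈ S.O) (hy : Small S y) : Small S (x * y) :=
  ⟨S.O.mul_mem hx hy.1, S.I.mul_mem_left ⟨x, hx⟩ hy.2⟩

theorem Small.mul_right {x y : F} (hx : Small S x) (hy : y ∈ S.O) : Small S (x * y) := by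
  rw [mul_comm]; exact hx.mul_left hy

theorem Small.sum {ι : Type*} (s : Finset ι) (f : ι → F) (h : ∀ i ∈ s, Small S (f i)) :
    Small S (∑ i ∈ s, f i) := by
  classical
  induction s using Finset.induction_on with
  | empty => simpa using small_zero
  | insert i s hi ih =>
    rw [Finset.sum_insert hi]
    exact (h i (Finset.mem_insert_self _ _)).add
      (ih fun j hj => h j (Finset.mem_insert_of_mem hj))

/-- congruence modulo the ideal of small elements -/
def Cong (S : SmallRing F) (x y : F) : Prop := Small S (x - y)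

theorem Cong.refl (x : F) : Cong S x x := by simpa [Cong] using small_zero

theorem Cong.symm {x y : F} (h : Cong S x y) : Cong S y x := by
  have := h.neg; rwa [neg_sub] at this

theorem Cong.trans {x y z : F} (h : Cong S x y) (h' : Cong S y z) : Cong S x z := by
  have := Small.add h h'; rwa [sub_add_sub_cancel] at this

theorem Cong.add {x y x' y' : F} (h : Cong S x x') (h' : Cong S y y') :
    Cong S (x + y) (x' + y') := by
  have := Small.add h h'
  rwa [show x - x' + (y - y') = x + y - (x' + y') by ring] at this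

theorem Cong.mul {x y x' y' : F} (hx : x ∈ S.O) (hy' : y' ∈ S.O) (h : Cong S x x')
    (h' : Cong S y y') : Cong S (x * y) (x' * y') := by
  have := Small.add (Small.mul_left hx h') (Small.mul_right h hy')
  rwa [show x * (y - y') + (x - x') * y' = x * y - x' * y' by ring] at this

theorem Cong.mem_iff {x y : F} (h : Cong S x y) : x ∈ S.O ↔ y ∈ S.O := by
  constructor
  · intro hx
    have := S.O.sub_mem hx (Small.mem h)
    rwa [sub_sub_cancel] at this
  · intro hy
    have := S.O.add_mem (Small.mem h) hy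
    rwa [sub_add_cancel] at this

theorem Cong.pow {x x' : F} (hx : x ∈ S.O) (h : Cong S x x') (n : ℕ) :
    Cong S (x ^ n) (x' ^ n) := by
  have hx' : x' ∈ S.O := h.mem_iff.mp hx
  induction n with
  | zero => simpa using Cong.refl (S := S) 1
  | succ n ih =>
    rw [pow_succ, pow_succ]
    exact Cong.mul (S.O.pow_mem hx n) hx' ih h

theorem cong_one_mem {x : F} (h : Cong S x 1) : x ∈ S.O := h.mem_iff.mpr S.O.one_mem

theorem Cong.sum {ι : Type*} (s : Finset ι) (f g : ι → F) (h : ∀ i ∈ s, Cong S (f i) (g i)) :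
    Cong S (∑ i ∈ s, f i) (∑ i ∈ s, g i) := by
  rw [Cong, ← Finset.sum_sub_distrib]
  exact Small.sum s _ h

end small

/-- Hypotheses on the base valuation ring `A` and the small ring `S` of `F`. -/
structure Base (A : Type*) [CommRing A] [IsDomain A] [ValuationRing A]
    {F : Type*} [Field F] [Algebra A F] (S : SmallRing F) : Prop where
  algebraMap_mem : ∀ a : A, algebraMap A F a ∈ S.O
  algebraMap_small : ∀ a ∈ maximalIdeal A, Small S (algebraMap A F a)
  /-- the valuation of `A` has rank one -/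
  rank_one : ∀ x ∈ maximalIdeal A, ∀ c : A, c ≠ 0 → ∃ j : ℕ, c ∣ x ^ j
  /-- `S` is unramified over `A` -/
  unram : ∀ x : F, Small S x → ∃ ϖ ∈ maximalIdeal A, ∃ y ∈ S.O, x = ϖ • y
  exists_ne_zero : ∃ ϖ ∈ maximalIdeal A, ϖ ≠ 0

namespace Base

variable {S : SmallRing F} (hB : Base A S)
include hB

theorem smul_mem_O (a : A) {x : F} (hx : x ∈ S.O) : a • x ∈ S.O := by
  rw [Algebra.smul_def]
  exact S.O.mul_mem (hB.algebraMap_mem a) hx

theorem small_smul {ϖ : A} (hϖ : ϖ ∈ maximalIdeal A) {x : F} (hx : x ∈ S.O) :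
    Small S (ϖ • x) := by
  rw [Algebra.smul_def]
  exact Small.mul_right (hB.algebraMap_small ϖ hϖ) hx

theorem small_smul' (a : A) {x : F} (hx : Small S x) : Small S (a • x) := by
  rw [Algebra.smul_def]
  exact Small.mul_left (hB.algebraMap_mem a) hx

end Base

/-- One chart: a filtered ring `⋃ N n` and a filtered module `⋃ M n` of order `m`, trivialised
by `u`. -/
structure Chart (A : Type*) [CommRing A] [IsDomain A] [ValuationRing A]
    {F : Type*} [Field F] [Algebra A F] (S : SmallRing F) (m : ℕ) (u : F) where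
  N : ℕ → Submodule A F
  M : ℕ → Submodule A F
  N_le : ∀ n x, x ∈ N n → x ∈ S.O
  M_le : ∀ n x, x ∈ M n → x ∈ S.O
  N_mono : Monotone N
  M_mono : Monotone M
  one_mem : (1 : F) ∈ N 0
  N_mul : ∀ {n n' : ℕ} {x y : F}, x ∈ N n → y ∈ N n' → x * y ∈ N (n + n')
  N_mul_M : ∀ {n n' : ℕ} {x y : F}, x ∈ N n → y ∈ M n' → x * y ∈ M (n + n')
  prod_M : ∀ {n : ℕ} {x y : F} (i j : ℕ), i + j = m → x ∈ M n → y ∈ M n →
    u * (x ^ i * y ^ j) ∈ N (m * n)
  N_sat : ∀ {n : ℕ} {c : A} {x : F}, c ≠ 0 → x ∈ S.O → c • x ∈ N n → x ∈ N n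
  M_sat : ∀ {n : ℕ} {c : A} {x : F}, c ≠ 0 → x ∈ S.O → c • x ∈ M n → x ∈ M n

namespace Chart

variable {S : SmallRing F} {m : ℕ} {u : F} (C : Chart A S m u)

/-- The ring of the chart. -/
def R : Subalgebra A F where
  carrier := {x | ∃ n, x ∈ C.N n}
  mul_mem' := by
    rintro x y ⟨n, hx⟩ ⟨n', hy⟩
    exact ⟨n + n', C.N_mul hx hy⟩
  add_mem' := by
    rintro x y ⟨n, hx⟩ ⟨n', hy⟩
    exact ⟨max n n', (C.N (max n n')).add_mem (C.N_mono (le_max_left _ _) hx)
      (C.N_mono (le_max_right _ _) hy)⟩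
  algebraMap_mem' := by
    intro a
    refine ⟨0, ?_⟩
    rw [Algebra.algebraMap_eq_smul_one]
    exact (C.N 0).smul_mem _ C.one_mem

/-- The module of the chart. -/
def P : Submodule A F where
  carrier := {x | ∃ n, x ∈ C.M n}
  zero_mem' := ⟨0, (C.M 0).zero_mem⟩
  add_mem' := by
    rintro x y ⟨n, hx⟩ ⟨n', hy⟩
    exact ⟨max n n', (C.M (max n n')).add_mem (C.M_mono (le_max_left _ _) hx)
      (C.M_mono (le_max_right _ _) hy)⟩
  smul_mem' := by
    rintro a x ⟨n, hx⟩
    exact ⟨n, (C.M n).smul_mem _ hx⟩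

theorem mem_R {x : F} : x ∈ C.R ↔ ∃ n, x ∈ C.N n := Iff.rfl

theorem mem_P {x : F} : x ∈ C.P ↔ ∃ n, x ∈ C.M n := Iff.rfl

theorem R_le {x : F} (hx : x ∈ C.R) : x ∈ S.O := by
  obtain ⟨n, hn⟩ := hx; exact C.N_le n x hn

theorem P_le {x : F} (hx : x ∈ C.P) : x ∈ S.O := by
  obtain ⟨n, hn⟩ := hx; exact C.M_le n x hn

theorem R_mul_P {x y : F} (hx : x ∈ C.R) (hy : y ∈ C.P) : x * y ∈ C.P := by
  obtain ⟨n, hn⟩ := hx
  obtain ⟨n', hn'⟩ := hy
  exact ⟨n + n', C.N_mul_M hn hn'⟩

theorem prod_P {x y : F} (i j : ℕ) (hij : i + j = m) (hx : x ∈ C.P) (hy : y ∈ C.P) :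
    u * (x ^ i * y ^ j) ∈ C.R := by
  obtain ⟨n, hn⟩ := hx
  obtain ⟨n', hn'⟩ := hy
  exact ⟨m * max n n', C.prod_M i j hij (C.M_mono (le_max_left _ _) hn)
    (C.M_mono (le_max_right _ _) hn')⟩

theorem pow_P {x : F} (hx : x ∈ C.P) : u * x ^ m ∈ C.R := by
  have := C.prod_P m 0 (by simp) hx hx
  simpa using this

variable (hB : Base A S)
include hB

/-- Division of small elements of `R` by an element of the maximal ideal of `A`. -/
theorem exists_smul_of_small_R [Module.IsTorsionFree A F] {x : F} (hx : x ∈ C.R)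
    (hs : Small S x) : ∃ ϖ ∈ maximalIdeal A, ∃ y ∈ C.R, x = ϖ • y := by
  obtain ⟨n, hn⟩ := hx
  obtain ⟨ϖ, hϖ, y, hy, rfl⟩ := hB.unram x hs
  by_cases h0 : ϖ = 0
  · exact ⟨0, (maximalIdeal A).zero_mem, 0, C.R.zero_mem, by simp [h0]⟩
  · exact ⟨ϖ, hϖ, y, ⟨n, C.N_sat h0 hy hn⟩, rfl⟩

theorem exists_smul_of_small_P [Module.IsTorsionFree A F] {x : F} (hx : x ∈ C.P)
    (hs : Small S x) : ∃ ϖ ∈ maximalIdeal A, ∃ y ∈ C.P, x = ϖ • y := by
  obtain ⟨n, hn⟩ := hx
  obtain ⟨ϖ, hϖ, y, hy, rfl⟩ := hB.unram x hs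
  by_cases h0 : ϖ = 0
  · exact ⟨0, (maximalIdeal A).zero_mem, 0, C.P.zero_mem, by simp [h0]⟩
  · exact ⟨ϖ, hϖ, y, ⟨n, C.M_sat h0 hy hn⟩, rfl⟩

end Chart

end Fermat.Agent.S34x.C0two
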