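import Fermat.Agent.Gateway.C0.Filt

/-!
# P-S34 WP6 (C0 over several valuations): the small ring of a finite family of valuation rings

`F` a field over a rank-one valuation ring `A`, `O : ι → ValuationSubring F` a finite family of
valuation subrings, each satisfying `C0.Base A (O i)` (over `A`, unramified).  We study

* `infRing O = ⋂ i, O i` (a subring of `F`), `SmallAll O x` (`x` is small at every `O i`),
  `CongAll O x y`;
* **joint unramifiedness** `exists_smul_of_smallAll`: a jointly small element is `ϖ • y` with
  `ϖ ∈ 𝔪_A` and `y ∈ ⋂ O i` (`A` is a valuation ring: take the `ϖ i` of smallest valuation);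
* the reduction map `resAll : infRing O →+* ∀ i, ResidueField (O i)`, with kernel the jointly
  small elements.
-/

set_option autoImplicit false

namespace Fermat.Agent.S34x.C0two.TwoVal

open IsLocalRing Fermat.Agent.Gateway.C0

variable {A : Type*} [CommRing A] [IsDomain A] [ValuationRing A]
variable {F : Type*} [Field F] [Algebra A F]
variable {ι : Type*} (O : ι → ValuationSubring F)

/-- The intersection of the valuation rings `O i`, as a subring of `F`. -/
def infRing : Subring F := ⨅ i, (O i).toSubring

theorem mem_infRing {x : F} : x ∈ infRing O ↔ ∀ i, x ∈ O i := by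
  simp [infRing, Subring.mem_iInf]

/-- `x` is small at every valuation of the family. -/
def SmallAll (x : F) : Prop := ∀ i, Small (O i) x

/-- Congruence modulo the jointly small elements. -/
def CongAll (x y : F) : Prop := ∀ i, Cong (O i) x y

variable {O}

theorem SmallAll.mem {x : F} (h : SmallAll O x) : x ∈ infRing O :=
  (mem_infRing O).2 fun i => (h i).mem

theorem smallAll_zero : SmallAll O (0 : F) := fun _ => small_zero

theorem SmallAll.add {x y : F} (hx : SmallAll O x) (hy : SmallAll O y) : SmallAll O (x + y) :=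
  fun i => (hx i).add (hy i)

theorem SmallAll.sub {x y : F} (hx : SmallAll O x) (hy : SmallAll O y) : SmallAll O (x - y) :=
  fun i => (hx i).sub (hy i)

theorem SmallAll.neg {x : F} (hx : SmallAll O x) : SmallAll O (-x) := fun i => (hx i).neg

theorem SmallAll.mul_left {x y : F} (hx : x ∈ infRing O) (hy : SmallAll O y) :
    SmallAll O (x * y) := fun i => (hy i).mul_left ((mem_infRing O).1 hx i)

theorem SmallAll.mul_right {x y : F} (hx : SmallAll O x) (hy : y ∈ infRing O) :
    SmallAll O (x * y) := fun i => (hx i).mul_right ((mem_infRing O).1 hy i)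

theorem SmallAll.sum {κ : Type*} (s : Finset κ) (f : κ → F) (h : ∀ j ∈ s, SmallAll O (f j)) :
    SmallAll O (∑ j ∈ s, f j) := fun i => Small.sum s f fun j hj => h j hj i

theorem congAll_iff_smallAll_sub {x y : F} : CongAll O x y ↔ SmallAll O (x - y) := Iff.rfl

theorem CongAll.refl (x : F) : CongAll O x x := fun _ => Cong.refl x

theorem CongAll.symm {x y : F} (h : CongAll O x y) : CongAll O y x := fun i => (h i).symm

theorem CongAll.trans {x y z : F} (h : CongAll O x y) (h' : CongAll O y z) : CongAll O x z :=
  fun i => (h i).trans (h' i)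

theorem CongAll.add {x y x' y' : F} (h : CongAll O x x') (h' : CongAll O y y') :
    CongAll O (x + y) (x' + y') := fun i => (h i).add (h' i)

theorem CongAll.mul {x y x' y' : F} (hx : x ∈ infRing O) (hy' : y' ∈ infRing O)
    (h : CongAll O x x') (h' : CongAll O y y') : CongAll O (x * y) (x' * y') :=
  fun i => Cong.mul ((mem_infRing O).1 hx i) ((mem_infRing O).1 hy' i) (h i) (h' i)

theorem CongAll.mem_iff {x y : F} (h : CongAll O x y) : x ∈ infRing O ↔ y ∈ infRing O := by
  rw [mem_infRing, mem_infRing]
  exact forall_congr' fun i => (h i).mem_iff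

theorem CongAll.pow {x x' : F} (hx : x ∈ infRing O) (h : CongAll O x x') (n : ℕ) :
    CongAll O (x ^ n) (x' ^ n) := fun i => Cong.pow ((mem_infRing O).1 hx i) (h i) n

theorem congAll_one_mem {x : F} (h : CongAll O x 1) : x ∈ infRing O :=
  h.mem_iff.2 (infRing O).one_mem

theorem CongAll.sum {κ : Type*} (s : Finset κ) (f g : κ → F)
    (h : ∀ j ∈ s, CongAll O (f j) (g j)) : CongAll O (∑ j ∈ s, f j) (∑ j ∈ s, g j) :=
  fun i => Cong.sum s f g fun j hj => h j hj i

/-! ### The base ring -/

section Base

variable (hB : ∀ i, Base A (O i))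
include hB

theorem algebraMap_mem_infRing (a : A) : algebraMap A F a ∈ infRing O :=
  (mem_infRing O).2 fun i => (hB i).algebraMap_mem a

theorem smul_mem_infRing (a : A) {x : F} (hx : x ∈ infRing O) : a • x ∈ infRing O :=
  (mem_infRing O).2 fun i => (hB i).smul_mem_O a ((mem_infRing O).1 hx i)

theorem smallAll_algebraMap {a : A} (ha : a ∈ maximalIdeal A) : SmallAll O (algebraMap A F a) :=
  fun i => (hB i).algebraMap_lt a ha

theorem smallAll_smul {ϖ : A} (hϖ : ϖ ∈ maximalIdeal A) {x : F} (hx : x ∈ infRing O) :
    SmallAll O (ϖ • x) := fun i => (hB i).small_smul hϖ ((mem_infRing O).1 hx i)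

theorem smallAll_smul' (a : A) {x : F} (hx : SmallAll O x) : SmallAll O (a • x) :=
  fun i => (hB i).small_smul' a (hx i)

end Base

/-- In a valuation ring, a finite nonempty family has a member dividing all the others. -/
theorem exists_dvd_all {κ : Type*} (s : Finset κ) (hs : s.Nonempty) (a : κ → A) :
    ∃ j ∈ s, ∀ i ∈ s, a j ∣ a i := by
  classical
  induction hs using Finset.Nonempty.cons_induction with
  | singleton j => exact ⟨j, Finset.mem_singleton_self j, fun i hi => by
      rw [Finset.mem_singleton.1 hi]⟩
  | cons j s hj hs ih =>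
    obtain ⟨j0, hj0, h0⟩ := ih
    rcases ValuationRing.dvd_total (a j) (a j0) with h | h
    · refine ⟨j, Finset.mem_cons_self j s, fun i hi => ?_⟩
      rcases Finset.mem_cons.1 hi with rfl | hi
      · exact dvd_rfl
      · exact h.trans (h0 i hi)
    · refine ⟨j0, Finset.mem_cons.2 (Or.inr hj0), fun i hi => ?_⟩
      rcases Finset.mem_cons.1 hi with rfl | hi
      · exact h
      · exact h0 i hi

/-- **Joint unramifiedness**: a jointly small element is divisible by an element of `𝔪_A` inside
`⋂ O i`. -/
theorem exists_smul_of_smallAll [Finite ι] [Nonempty ι] [Module.IsTorsionFree A F]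
    (hB : ∀ i, Base A (O i)) {x : F} (hx : SmallAll O x) :
    ∃ ϖ ∈ maximalIdeal A, ∃ y ∈ infRing O, x = ϖ • y := by
  classical
  have := Fintype.ofFinite ι
  choose ϖ hϖ y hy hxy using fun i => (hB i).unram x (hx i)
  obtain ⟨j, -, hj⟩ := exists_dvd_all (Finset.univ : Finset ι) Finset.univ_nonempty ϖ
  by_cases h0 : ϖ j = 0
  · refine ⟨0, (maximalIdeal A).zero_mem, 0, (infRing O).zero_mem, ?_⟩
    rw [hxy j, h0, zero_smul, zero_smul]
  · refine ⟨ϖ j, hϖ j, y j, (mem_infRing O).2 fun i => ?_, hxy j⟩
    obtain ⟨a, ha⟩ := hj i (Finset.mem_univ i)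
    have h1 : ϖ j • y j = ϖ j • (a • y i) := by
      rw [← hxy j, smul_smul, ← ha, ← hxy i]
    have h2 : y j = a • y i := smul_right_injective F h0 h1
    rw [h2]
    exact (hB i).smul_mem_O a (hy i)

/-! ### The reduction map -/

section Res

variable (O)

/-- The reduction map `⋂ O i → ∏ i, κ(O i)`. -/
noncomputable def resAll : infRing O →+* ∀ i, ResidueField (O i) :=
  RingHom.pi fun i =>
    (IsLocalRing.residue (O i)).comp
      (Subring.inclusion (iInf_le (fun i => (O i).toSubring) i : infRing O ≤ (O i).toSubring))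

theorem resAll_apply (x : infRing O) (i : ι) :
    resAll O x i = IsLocalRing.residue (O i) ⟨x.1, (mem_infRing O).1 x.2 i⟩ := rfl

variable {O}

theorem small_iff_residue_eq_zero {V : ValuationSubring F} {x : F} (hx : x ∈ V) :
    Small V x ↔ IsLocalRing.residue V ⟨x, hx⟩ = 0 := by
  rw [IsLocalRing.residue_eq_zero_iff]
  exact (V.valuation_lt_one_iff ⟨x, hx⟩).symm

theorem resAll_eq_zero_iff (x : infRing O) : resAll O x = 0 ↔ SmallAll O x.1 := by
  rw [funext_iff]
  refine forall_congr' fun i => ?_
  rw [resAll_apply, Pi.zero_apply, ← small_iff_residue_eq_zero]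

theorem resAll_eq_iff (x y : infRing O) : resAll O x = resAll O y ↔ CongAll O x.1 y.1 := by
  rw [← sub_eq_zero, ← map_sub, resAll_eq_zero_iff]
  rfl

end Res

end Fermat.Agent.S34x.C0two.TwoVal
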