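import Fermat.Agent.S34x.C0two.TwoVal
import Fermat.Agent.Gateway.C0.Count

/-!
# P-S34 WP6: joint reduction data for a finite family of valuation subrings

`A` a valuation subring of `K`, `F ⊇ K`, `O : ι → ValuationSubring F` a finite family, each with a
`C0.RedSetup A (O i) k (κ i)` (helper92, Gateway/C0/Count).  We assemble the joint data on the
small ring `⋂ O i`:

* `exists_scal_joint`: every `f ≠ 0` has a scalar multiple `c • f ∈ ⋂ O i` which is a unit at
  some `O j` (same value group, jointly);
* `jointRes : infRing O →+* ∀ i, κ i`, with `jointRes_eq_zero_iff` (kernel = jointly small),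
  `jointRes_algebraMap`, `jointRes_smul`, `jointRes_sum`;
* `exists_smul_of_smallAll'`: joint unramifiedness in `RedSetup` form.
-/

set_option autoImplicit false

namespace Fermat.Agent.S34x.C0two.TwoVal

open IsLocalRing Fermat.Agent.Gateway.C0

/-- A finite nonempty family has a least element for a total transitive relation. -/
theorem exists_least_of_total {κ : Type*} (s : Finset κ) (hs : s.Nonempty) (r : κ → κ → Prop)
    (hrefl : ∀ i, r i i) (htrans : ∀ i j l, r i j → r j l → r i l)
    (htot : ∀ i j, r i j ∨ r j i) : ∃ j ∈ s, ∀ i ∈ s, r j i := by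
  classical
  induction hs using Finset.Nonempty.cons_induction with
  | singleton j => exact ⟨j, Finset.mem_singleton_self j, fun i hi => by
      rw [Finset.mem_singleton.1 hi]; exact hrefl j⟩
  | cons j s hj hs ih =>
    obtain ⟨j0, hj0, h0⟩ := ih
    rcases htot j j0 with h | h
    · refine ⟨j, Finset.mem_cons_self j s, fun i hi => ?_⟩
      rcases Finset.mem_cons.1 hi with rfl | hi
      · exact hrefl _
      · exact htrans _ _ _ h (h0 i hi)
    · refine ⟨j0, Finset.mem_cons.2 (Or.inr hj0), fun i hi => ?_⟩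
      rcases Finset.mem_cons.1 hi with rfl | hi
      · exact h
      · exact h0 i hi

variable {K : Type*} [Field K] {A : ValuationSubring K} {F : Type*} [Field F] [Algebra K F]
  {ι : Type*} {O : ι → ValuationSubring F} {k : Type*} [Field k]
  {κ : ι → Type*} [∀ i, Field (κ i)] [∀ i, Algebra k (κ i)]

/-- **Joint scaling**: every nonzero `f` has a `K`-multiple in `⋂ O i` which is a unit at some
`O j`. -/
theorem exists_scal_joint [Finite ι] [Nonempty ι]
    (hmem : ∀ i (a : A), algebraMap K F a ∈ O i)
    (hscal : ∀ i (f : F), f ≠ 0 → ∃ c : K, c ≠ 0 ∧ (O i).valuation (c • f) = 1)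
    (f : F) (hf : f ≠ 0) :
    ∃ c : K, c ≠ 0 ∧ c • f ∈ infRing O ∧ ∃ j, (O j).valuation (c • f) = 1 := by
  classical
  have := Fintype.ofFinite ι
  choose c hc hcf using fun i => hscal i f hf
  obtain ⟨j, -, hj⟩ := exists_least_of_total (Finset.univ : Finset ι) Finset.univ_nonempty
    (fun j i => c j * (c i)⁻¹ ∈ A)
    (fun i => by rw [mul_inv_cancel₀ (hc i)]; exact A.one_mem)
    (fun i j l h h' => by
      have := A.mul_mem _ _ h h'
      rwa [mul_assoc, inv_mul_cancel_left₀ (hc j)] at this)
    (fun i j => by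
      rcases A.mem_or_inv_mem (c i * (c j)⁻¹) with h | h
      · exact Or.inl h
      · right
        rwa [mul_inv_rev, inv_inv] at h)
  refine ⟨c j, hc j, (mem_infRing O).2 fun i => ?_, j, hcf j⟩
  have h1 : c j • f = algebraMap K F (c j * (c i)⁻¹) * (c i • f) := by
    rw [Algebra.smul_def, Algebra.smul_def, ← mul_assoc, ← map_mul, mul_assoc,
      inv_mul_cancel₀ (hc i), mul_one]
  rw [h1]
  refine (O i).mul_mem _ _ (hmem i ⟨_, hj i (Finset.mem_univ i)⟩) ?_
  exact ((O i).valuation_le_one_iff _).1 (hcf i).le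

section Joint

variable (R : ∀ i, RedSetup A (O i) k (κ i))

/-- The joint reduction map `⋂ O i → ∏ κ i`. -/
noncomputable def jointRes : infRing O →+* ∀ i, κ i :=
  RingHom.pi fun i =>
    (R i).res.comp
      (Subring.inclusion (iInf_le (fun i => (O i).toSubring) i : infRing O ≤ (O i).toSubring))

theorem jointRes_apply (x : infRing O) (i : ι) :
    jointRes R x i = (R i).res ⟨x.1, (mem_infRing O).1 x.2 i⟩ := rfl

theorem jointRes_eq_zero_iff (x : infRing O) : jointRes R x = 0 ↔ SmallAll O x.1 := by
  rw [funext_iff]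
  refine forall_congr' fun i => ?_
  rw [jointRes_apply, Pi.zero_apply]
  exact (R i).res_ker _

theorem jointRes_eq_iff (x y : infRing O) : jointRes R x = jointRes R y ↔ CongAll O x.1 y.1 := by
  rw [← sub_eq_zero, ← map_sub, jointRes_eq_zero_iff]
  rfl

include R in
theorem base_all (i : ι) : Base A (O i) := (R i).base

include R in
theorem smul_mem_infRing' (a : A) {x : F} (hx : x ∈ infRing O) : a • x ∈ infRing O :=
  (mem_infRing O).2 fun i => (R i).smul_mem_O a ((mem_infRing O).1 hx i)

theorem jointRes_smul (a : A) {x : F} (hx : x ∈ infRing O) (i : ι) :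
    jointRes R ⟨a • x, smul_mem_infRing' R a hx⟩ i = (R i).π a • jointRes R ⟨x, hx⟩ i :=
  (R i).res_smul a ((mem_infRing O).1 hx i)

theorem jointRes_algebraMap (a : A) (i : ι) :
    jointRes R ⟨algebraMap K F a, (mem_infRing O).2 fun i => (R i).algebraMap_mem a⟩ i =
      algebraMap k (κ i) ((R i).π a) :=
  (R i).res_algebraMap a

include R in
/-- **Joint unramifiedness**, `RedSetup` form. -/
theorem exists_smul_of_smallAll' [Finite ι] [Nonempty ι] {x : F} (hx : SmallAll O x) :
    ∃ ϖ ∈ maximalIdeal A, ∃ y ∈ infRing O, x = ϖ • y :=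
  exists_smul_of_smallAll (fun i => (R i).base) hx

/-- **Joint scaling**, `RedSetup` form: a nonzero `f` has a multiple in `⋂ O i` with nonzero
joint reduction. -/
theorem exists_scal_jointRes_ne_zero [Finite ι] [Nonempty ι] (f : F) (hf : f ≠ 0) :
    ∃ c : K, c ≠ 0 ∧ ∃ h : c • f ∈ infRing O, jointRes R ⟨c • f, h⟩ ≠ 0 := by
  obtain ⟨c, hc, hmem, j, hj⟩ := exists_scal_joint (fun i a => (R i).algebraMap_mem a)
    (fun i => (R i).scal) f hf
  refine ⟨c, hc, hmem, fun h0 => ?_⟩
  have := (jointRes_eq_zero_iff R ⟨c • f, hmem⟩).1 h0 j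
  have h2 : (O j).valuation (c • f) < 1 := this
  rw [hj] at h2
  exact lt_irrefl _ h2

end Joint

end Fermat.Agent.S34x.C0two.TwoVal
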